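/-
S56, wall W4, seat B (owner: helper89): the peu ramifiés cocycles of `k(ω)`.
Statement FIXED (sub-architect helper80).

`#H¹(ℚ_p, k(ω)) = |k|²` (Kummer: `ℚ_p^× / p`), but the peu ramifiés classes are those of the UNITS
`ℤ_p^× / p`: `|k|` classes, so `|k|²` cocycles.
Proof (refinement of W3c `so_kummer_fp` / `twZ_card_le`).  For an additive `φ : k → 𝔽_p` and `f` in
`twZ p ω`, `φ ∘ f ∈ twZ p (cycLoc p)` has a Kummer generator: `b ∈ Ωˣ` (`Ω = PadicAlgCl p`),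
`γ b / b = ζ ^ φ (f γ)`, `b ^ p = x ∈ ℚ_p^×`.  Modulo `p`-th powers `x` is a rational number, so
WLOG `b ∈ ℚ̄`.  If `f` is peu ramifié, `a` the unit of `P₀` with `σ a = ζ ^ φ (f σ) a` on inertia:
`b / a` is fixed by inertia, so its valuation is an integer (`p` is a uniformiser of the fixed field
of inertia: `Lib/FFL/Unr.lean` `unrProp`, `Lib/FFL/Base.lean`), hence `v(x) = p v(b / a) ∈ pℤ`
(`CountB/Val.lean`, `cbv_dvd_valuation`) and `x` is a unit times a `p`-th power: the classes of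
such `x` modulo `p`-th powers are at most `p` (`CountB/Padic.lean`, `cbp_units_mod_pow`).
-/
import Fermat.Agent.S56.W4.Defs
import Fermat.Agent.S56.W3.SO.Kummer
import Fermat.Agent.S56.W4.CountB.Val

set_option autoImplicit false
set_option linter.style.haveILetI false

namespace Fermat.Agent.S56.W4

open Fermat.Agent.F4 Fermat.Agent.F4.Loc ExtCitation Fermat.Agent.S56.SO

/-- Two cocycles whose Kummer generators differ by a `p`-th power of `ℚ_p` differ by a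
coboundary. -/
theorem cb_cobound (p : ℕ) [Fact p.Prime]
    {ζ : (PadicAlgCl ((pPrime p : Nat.Primes) : ℕ))ˣ} (hζprim : IsPrimitiveRoot ζ p)
    (hζ : ∀ γ : Gp p, γ • ζ = ζ ^ (cycLoc p γ).val)
    {f f' : Gp p → ZMod p}
    {b b' : (PadicAlgCl ((pPrime p : Nat.Primes) : ℕ))ˣ}
    {x x' z : ℚ_[((pPrime p : Nat.Primes) : ℕ)]ˣ}
    (hb : ∀ γ : Gp p, γ • b / b = kfpE ζ (f γ))
    (hx : algebraMap ℚ_[((pPrime p : Nat.Primes) : ℕ)] (PadicAlgCl ((pPrime p : Nat.Primes) : ℕ))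
          (x : ℚ_[((pPrime p : Nat.Primes) : ℕ)])
          = ((b ^ p : (PadicAlgCl ((pPrime p : Nat.Primes) : ℕ))ˣ) :
              PadicAlgCl ((pPrime p : Nat.Primes) : ℕ)))
    (hb' : ∀ γ : Gp p, γ • b' / b' = kfpE ζ (f' γ))
    (hx' : algebraMap ℚ_[((pPrime p : Nat.Primes) : ℕ)] (PadicAlgCl ((pPrime p : Nat.Primes) : ℕ))
          (x' : ℚ_[((pPrime p : Nat.Primes) : ℕ)])
          = ((b' ^ p : (PadicAlgCl ((pPrime p : Nat.Primes) : ℕ))ˣ) :
              PadicAlgCl ((pPrime p : Nat.Primes) : ℕ)))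
    (hz : x = x' * z ^ p) :
    ∃ t : ZMod p, ∀ γ : Gp p, f γ - f' γ = (cycLoc p γ - 1) * t := by
  classical
  have : NeZero p := ⟨(Fact.out : p.Prime).ne_zero⟩
  have hζp : ζ ^ p = 1 := hζprim.pow_eq_one
  -- the image of `z` in `Ωˣ`
  obtain ⟨zu, hzu, hzfix⟩ : ∃ zu : (PadicAlgCl ((pPrime p : Nat.Primes) : ℕ))ˣ,
      b ^ p = b' ^ p * zu ^ p ∧ ∀ γ : Gp p, γ • zu = zu := by
    refine ⟨Units.map (algebraMap ℚ_[((pPrime p : Nat.Primes) : ℕ)]
      (PadicAlgCl ((pPrime p : Nat.Primes) : ℕ))).toMonoidHom z, Units.ext ?_,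
      fun γ => Units.ext ?_⟩
    · rw [← hx, Units.val_mul, ← hx', Units.val_pow_eq_pow_val, Units.coe_map]
      show algebraMap _ _ ((x : ℚ_[((pPrime p : Nat.Primes) : ℕ)]ˣ) :
        ℚ_[((pPrime p : Nat.Primes) : ℕ)]) = _ * (algebraMap _ _
          (z : ℚ_[((pPrime p : Nat.Primes) : ℕ)])) ^ p
      rw [← map_pow, ← map_mul]
      exact congrArg _ (congrArg Units.val hz)
    · rw [primeLocal_smul_units, Units.coe_map]
      exact AlgEquiv.commutes (show PadicAlgCl ((pPrime p : Nat.Primes) : ℕ)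
        ≃ₐ[ℚ_[((pPrime p : Nat.Primes) : ℕ)]] PadicAlgCl ((pPrime p : Nat.Primes) : ℕ) from γ) _
  have hc : (b / (b' * zu)) ^ p = 1 := by
    rw [div_pow, mul_pow, hzu, div_self']
  obtain ⟨j, hjc⟩ : ∃ j : ℕ, ζ ^ j = b / (b' * zu) := by
    have hc' : ((b / (b' * zu) : (PadicAlgCl ((pPrime p : Nat.Primes) : ℕ))ˣ) :
        PadicAlgCl ((pPrime p : Nat.Primes) : ℕ)) ^ p = 1 := by
      rw [← Units.val_pow_eq_pow_val, hc, Units.val_one]
    obtain ⟨j, -, hj⟩ := (IsPrimitiveRoot.coe_units_iff.2 hζprim).eq_pow_of_pow_eq_one hc'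
    exact ⟨j, Units.ext (by rw [Units.val_pow_eq_pow_val, hj])⟩
  have hbeq : b = b' * zu * ζ ^ j := by
    rw [hjc, mul_div_cancel]
  refine ⟨(j : ZMod p), fun γ => ?_⟩
  have h2 : kfpE ζ ((cycLoc p γ - 1) * (j : ZMod p)) * ζ ^ j = (ζ ^ j) ^ (cycLoc p γ).val := by
    rw [← kfpE_natCast hζp j, ← kfpE_add hζp, ← kfpE_mul hζp]
    congr 1
    ring
  have h1 : kfpE ζ (f γ) = kfpE ζ (f' γ) * kfpE ζ ((cycLoc p γ - 1) * (j : ZMod p)) := by
    have e1 : γ • b = kfpE ζ (f γ) * b := by rw [← hb γ, div_mul_cancel]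
    have e2 : γ • b' = kfpE ζ (f' γ) * b' := by rw [← hb' γ, div_mul_cancel]
    have e3 : γ • b = γ • b' * zu * (ζ ^ j) ^ (cycLoc p γ).val := by
      conv_lhs => rw [hbeq]
      rw [smul_mul', smul_mul', hzfix, smul_pow', hζ γ, ← pow_mul, ← pow_mul, mul_comm j]
    have e4 : kfpE ζ (f γ) * b
        = kfpE ζ (f' γ) * kfpE ζ ((cycLoc p γ - 1) * (j : ZMod p)) * b := by
      rw [← e1, e3, e2, ← h2]
      conv_rhs => rw [hbeq]
      ac_rfl
    exact mul_right_cancel e4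
  rw [← kfpE_add hζp] at h1
  have h3 := kfpE_injective hζprim h1
  rw [h3]
  ring

/-- **(K1, peu ramifié)** the peu ramifiés `cycLoc`-twisted cocycles `Gp p → 𝔽_p` fall into at
most `p` classes modulo coboundaries (`ℤ_p^× / (ℤ_p^×)^p`). -/
theorem cb_kummer_fp (p : ℕ) [Fact p.Prime] (hp2 : p ≠ 2) {ζ₀ : AlgebraicClosure ℚ}
    (hζ₀ : IsPrimitiveRoot ζ₀ p) :
    ∃ F : (Gp p → ZMod p) → Fin p, ∀ f f' : Gp p → ZMod p,
      f ∈ twZ p (cycLoc p) → f' ∈ twZ p (cycLoc p) → CbPeu p ζ₀ f → CbPeu p ζ₀ f' → F f = F f' →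
      ∃ t : ZMod p, ∀ γ : Gp p, f γ - f' γ = (cycLoc p γ - 1) * t := by
  classical
  have : NeZero p := ⟨(Fact.out : p.Prime).ne_zero⟩
  have hK2 : ∃ G : ℚ_[((pPrime p : Nat.Primes) : ℕ)]ˣ → Fin p,
      ∀ x y : ℚ_[((pPrime p : Nat.Primes) : ℕ)]ˣ,
        (p : ℤ) ∣ (x : ℚ_[((pPrime p : Nat.Primes) : ℕ)]).valuation →
        (p : ℤ) ∣ (y : ℚ_[((pPrime p : Nat.Primes) : ℕ)]).valuation → G x = G y →
        ∃ z : ℚ_[((pPrime p : Nat.Primes) : ℕ)]ˣ, x = y * z ^ p :=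
    cbp_units_mod_pow p hp2
  obtain ⟨G, hG⟩ := hK2
  obtain ⟨ζ, hζι, hζprim, hζ⟩ := cbv_zeta p hζ₀
  have hζp : ζ ^ p = 1 := hζprim.pow_eq_one
  have hex : ∀ f : Gp p → ZMod p, ∃ x : ℚ_[((pPrime p : Nat.Primes) : ℕ)]ˣ,
      f ∈ twZ p (cycLoc p) → ∃ b : (PadicAlgCl ((pPrime p : Nat.Primes) : ℕ))ˣ,
        (∀ γ : Gp p, γ • b / b = kfpE ζ (f γ)) ∧
        algebraMap ℚ_[((pPrime p : Nat.Primes) : ℕ)] (PadicAlgCl ((pPrime p : Nat.Primes) : ℕ))
          (x : ℚ_[((pPrime p : Nat.Primes) : ℕ)])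
          = ((b ^ p : (PadicAlgCl ((pPrime p : Nat.Primes) : ℕ))ˣ) :
              PadicAlgCl ((pPrime p : Nat.Primes) : ℕ)) := by
    intro f
    by_cases hf : f ∈ twZ p (cycLoc p)
    · obtain ⟨b, x, hb, hx⟩ := kfp_exists_root hζp hζ hf
      exact ⟨x, fun _ => ⟨b, hb, hx⟩⟩
    · exact ⟨1, fun h => absurd h hf⟩
  choose X hX using hex
  refine ⟨fun f => G (X f), fun f f' hf hf' hpeu hpeu' hFF => ?_⟩
  obtain ⟨b, hb, hx⟩ := hX f hf
  obtain ⟨b', hb', hx'⟩ := hX f' hf'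
  obtain ⟨z, hz⟩ := hG _ _ (cbv_dvd_valuation p hp2 hζ₀ hζι hpeu hb hx)
    (cbv_dvd_valuation p hp2 hζ₀ hζι hpeu' hb' hx') hFF
  exact cb_cobound p hζprim hζ hb hx hb' hx' hz

/-- **(B)** there are at most `|k|²` peu ramifiés cocycles of `k(ω)`. -/
theorem twZpeu_card_le {k : Type} [Field k] [Finite k] (p : ℕ) [Fact p.Prime] (hp2 : p ≠ 2)
    (hpk : (p : k) = 0) (ω : Gp p → k) (hω : IsCycLoc p ω)
    (ζ : AlgebraicClosure ℚ) (hζ : IsPrimitiveRoot ζ p) :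
    Finite ↥(twZpeu p ζ hζ.pow_eq_one ω) ∧
      Nat.card ↥(twZpeu p ζ hζ.pow_eq_one ω) ≤ Nat.card k ^ 2 := by
  classical
  have hchar : CharP k p := sok3_charP p hpk
  letI : Algebra (ZMod p) k := ZMod.algebra k p
  letI : Fintype k := Fintype.ofFinite k
  set d := Module.finrank (ZMod p) k with hd
  have hcard : Nat.card k = p ^ d := by
    have h := Module.card_eq_pow_finrank (K := ZMod p) (V := k)
    rw [ZMod.card] at h
    rw [Nat.card_eq_fintype_card, h]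
  let b : Module.Basis (Fin d) (ZMod p) k := Module.finBasis (ZMod p) k
  obtain ⟨F, hF⟩ := cb_kummer_fp p hp2 hζ
  obtain ⟨γ₁, hγ₁⟩ := exists_cycLoc_ne_one p hp2
  let Φ : ↥(twZpeu p ζ hζ.pow_eq_one ω) → (Fin d → Fin p) × k := fun f =>
    (fun i => F (fun γ => b.coord i (f.1 γ)), f.1 γ₁)
  have hpeu : ∀ (f : ↥(twZpeu p ζ hζ.pow_eq_one ω)) (i : Fin d),
      CbPeu p ζ (fun γ => b.coord i (f.1 γ)) := fun f i =>
    f.2.2 (b.coord i).toAddMonoidHom
  have hΦ : Function.Injective Φ := by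
    intro f f' hff
    have h1 : ∀ i, F (fun γ => b.coord i (f.1 γ)) = F (fun γ => b.coord i (f'.1 γ)) :=
      fun i => congrFun (congrArg Prod.fst hff) i
    have h2 : f.1 γ₁ = f'.1 γ₁ := congrArg Prod.snd hff
    have h3 : ∀ i, ∃ t : ZMod p, ∀ γ : Gp p,
        b.coord i (f.1 γ) - b.coord i (f'.1 γ) = (cycLoc p γ - 1) * t :=
      fun i => hF _ _ (sok3_coord_mem p ω hω (b.coord i) f.2.1)
        (sok3_coord_mem p ω hω (b.coord i) f'.2.1) (hpeu f i) (hpeu f' i) (h1 i)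
    choose t ht using h3
    set T : k := ∑ i, t i • b i with hT
    have hTi : ∀ i, b.coord i T = t i := by
      intro i
      rw [hT, Module.Basis.coord_apply, Module.Basis.repr_sum_self]
    have hkey : ∀ γ : Gp p, f.1 γ - f'.1 γ = (ω γ - 1) * T := by
      intro γ
      apply b.repr.injective
      ext i
      have e1 : b.repr (f.1 γ - f'.1 γ) i = b.coord i (f.1 γ) - b.coord i (f'.1 γ) := by
        rw [map_sub, Finsupp.sub_apply]; rfl
      have e2 : b.repr ((ω γ - 1) * T) i = (cycLoc p γ - 1) * t i := by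
        have e3 : (ω γ - 1) * T = (cycLoc p γ - 1) • T := by
          rw [Algebra.smul_def, map_sub, map_one, sok3_omega_eq p ω hω γ]
        rw [e3, map_smul, Finsupp.smul_apply, smul_eq_mul]
        congr 1
        exact hTi i
      rw [e1, e2, ht i γ]
    have hω1 : ω γ₁ - 1 ≠ 0 := by
      intro h0
      apply hγ₁
      have h4 : algebraMap (ZMod p) k (cycLoc p γ₁) = algebraMap (ZMod p) k 1 := by
        rw [map_one, ← sok3_omega_eq p ω hω γ₁]
        exact sub_eq_zero.1 h0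
      exact (algebraMap (ZMod p) k).injective h4
    have hT0 : T = 0 := by
      have h5 := hkey γ₁
      rw [h2, sub_self] at h5
      rcases mul_eq_zero.1 h5.symm with h | h
      · exact absurd h hω1
      · exact h
    apply Subtype.ext
    funext γ
    have h6 := hkey γ
    rw [hT0, mul_zero] at h6
    exact sub_eq_zero.1 h6
  haveI : Finite ↥(twZpeu p ζ hζ.pow_eq_one ω) := Finite.of_injective Φ hΦ
  refine ⟨inferInstance, ?_⟩
  calc Nat.card ↥(twZpeu p ζ hζ.pow_eq_one ω) ≤ Nat.card ((Fin d → Fin p) × k) :=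
        Nat.card_le_card_of_injective Φ hΦ
    _ = Nat.card k ^ 2 := by
        rw [Nat.card_prod, Nat.card_fun, Nat.card_fin, Nat.card_fin, hcard, ← pow_mul,
          ← pow_add]
        congr 1
        ring

end Fermat.Agent.S56.W4
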