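/-
S56, wall W4, seat TP (owner: helper44): normal form of the FLAT tangent cocycles in the ordinary
case, and peu ramifié.  STUB, statements FIXED (sub-architect helper80).

Setting: `w` with `FlTri ρbar.ρ P w`; `ρ` a deformation of `ρbar` to `k[ε]`, isomorphic to
`(1 + ε c) ρbar` (`IsDefOf`), flat at `p` with cyclotomic determinant.
Proof.  `coinvKer P ρ` satisfies `h1` (by `FlTri`: the residual coinvariants are nonzero) and `h2`
(`det = ω` is nontrivial on inertia, `Fermat.Agent.MultRed.exists_inertia_cycExp_ne_one`), so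
FFL-FREE (`Lib/FFL/FreeFinal.lean` `exists_basis_coinvKer_of_odd`) gives a `k[ε]`-basis `b` with
`coinvKer P ρ = span {b 0}`; the line is stable under the decomposition group
(`map_mem_coinvKer`) and inertia acts trivially on the quotient (`sub_mem_coinvKer`).  Now argue as
in W3c (T1) (`S56/W3/SO/Tangent/T1.lean`), with `inert` in place of `cyc`: `b 0 = u • (1 ⊗ w 0 + ε ⊗ a)`;
`m₁ : w 0 ↦ a, w 1 ↦ 0`, `m = m₁ - tr m₁ / 2`; `c' σ = c σ + (σ m - m)` preserves `k · w 0` for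
`σ ∈ D`; for `σ ∈ I` the lower right entry of `c' σ` vanishes, so (trace `0`) `c' σ ∈ W0 w`.
Peu ramifié: `PeuFlat` for `M = ρ.V` (`isFlatGaloisModule_of_isFlatAt`), `N = coinvKer P ρ`,
`ι (t • b 0) = ζ ^ φ' t` with `φ' (t₀ + ε t₁) = φ t₁` (resp. `φ t₀` for the residual cocycle), and the
point `1 ⊗ w 1` (transported): for `σ ∈ I`, `σ (1 ⊗ w 1) - 1 ⊗ w 1 = (b σ + ε c'₁₂ σ) ⊗ w 0`, where
`b σ = mat w (ρbar σ) 0 1`.  `I` acts on the line through `det = ω`, so `ι` is `I`-equivariant.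
-/
import Fermat.Agent.S56.W4.Defs
import Fermat.Agent.Lib.FFL.FreeFinal
import Fermat.Agent.S56.W4.Normal.Pack

set_option autoImplicit false

namespace Fermat.Agent.S56.W4

open Fermat.Agent.F4 ExtCitation Fermat.Agent.S56.SO Fermat.Agent.FFL

/-- **(TP)** a flat tangent cocycle is, up to the coboundary of some `m ∈ ad⁰`, triangular on the
decomposition group and `W0 w`-valued on inertia, with peu ramifié upper right entry. -/
theorem fl_tangent_normal_form {k : Type} [Field k] [Finite k] (p : ℕ) [Fact p.Prime]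
    (hp2 : p ≠ 2) (hpk : (p : k) = 0) (ρbar : ResidualGaloisRep k)
    (P : ValuationSubring (AlgebraicClosure ℚ)) (hP : P.LiesOverPrime p)
    (w : Module.Basis (Fin 2) k ρbar.V) (hw : FlTri ρbar.ρ P w)
    (ζ : AlgebraicClosure ℚ) (hζ : IsPrimitiveRoot ζ p) (hpeu : PeuFlat p P)
    (c : GQ → ad0 ρbar) (ρ : GaloisRepAdic (DualNumber k)) (hdef : IsDefOf ρbar c ρ)
    (hdet : ρ.DetIsCyclotomic p) (hfl : ρ.IsFlatAt p) :
    ∃ m : ad0 ρbar,
      (∀ σ ∈ P.decompositionSubgroup ℚ,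
        IsTri w ((c σ + ((ad0 ρbar).ρ σ m - m) : ad0 ρbar) : ↥(ad0Sub ρbar)).1) ∧
      (∀ σ ∈ P.inertiaSubgroupIn ℚ,
        ((c σ + ((ad0 ρbar).ρ σ m - m) : ad0 ρbar) : ↥(ad0Sub ρbar)).1 ∈ W0 w) ∧
      IsPeu p P ζ
        (fun σ => mat w ((c σ + ((ad0 ρbar).ρ σ m - m) : ad0 ρbar) : ↥(ad0Sub ρbar)).1 0 1) := by
  obtain ⟨e, he⟩ := hdef
  obtain ⟨m, ℓ'', Λ₁, -, hgen, hΛ, h1, h2, hcyc, hg⟩ :=
    tp_package p hp2 hpk ρbar P hP w hw c ρ e he hdet hfl
  refine ⟨m, h1, h2, ?_⟩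
  refine tp_peu_apply p P ζ hζ.pow_eq_one hpeu ρbar w c ρ e he hfl ℓ'' hgen
    (fun y => Λ₁ y) (fun s => TrivSqZeroExt.snd s) (fun x y => map_add Λ₁ x y) hΛ ?_ ?_ _ ?_
  · intro s n
    show TrivSqZeroExt.snd (s * (n : DualNumber k)) = n • TrivSqZeroExt.snd s
    rw [DualNumber.snd_mul, TrivSqZeroExt.snd_natCast, TrivSqZeroExt.fst_natCast, mul_zero,
      zero_add, nsmul_eq_mul, mul_comm]
  · intro σ hσ
    obtain ⟨a, ha⟩ := Fermat.Agent.S59.SOArith.exists_cycExp p σ 1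
    exact ⟨a, ha ζ (by rw [pow_one]; exact hζ.pow_eq_one), hcyc σ hσ a ha⟩
  · intro σ hσ t ht
    exact (hg σ hσ t ht).1

/-- **(TP')** if `ρbar` has a flat deformation to `k[ε]`, its extension cocycle is peu ramifié. -/
theorem fl_resid_peu {k : Type} [Field k] [Finite k] (p : ℕ) [Fact p.Prime]
    (hp2 : p ≠ 2) (hpk : (p : k) = 0) (ρbar : ResidualGaloisRep k)
    (P : ValuationSubring (AlgebraicClosure ℚ)) (hP : P.LiesOverPrime p)
    (w : Module.Basis (Fin 2) k ρbar.V) (hw : FlTri ρbar.ρ P w)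
    (ζ : AlgebraicClosure ℚ) (hζ : IsPrimitiveRoot ζ p) (hpeu : PeuFlat p P)
    (c : GQ → ad0 ρbar) (ρ : GaloisRepAdic (DualNumber k)) (hdef : IsDefOf ρbar c ρ)
    (hdet : ρ.DetIsCyclotomic p) (hfl : ρ.IsFlatAt p) :
    IsPeu p P ζ (fun σ => mat w (ρbar.ρ σ) 0 1) := by
  obtain ⟨e, he⟩ := hdef
  obtain ⟨m, ℓ'', Λ₁, hℓ0, hgen, -, -, -, hcyc, hg⟩ :=
    tp_package p hp2 hpk ρbar P hP w hw c ρ e he hdet hfl
  refine tp_peu_apply p P ζ hζ.pow_eq_one hpeu ρbar w c ρ e he hfl ℓ'' hgen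
    (fun y => w.repr (redFst y) 0) (fun s => TrivSqZeroExt.fst s) ?_ ?_ ?_ ?_ _ ?_
  · intro x y
    show w.repr (redFst (x + y)) 0 = w.repr (redFst x) 0 + w.repr (redFst y) 0
    rw [map_add, map_add, Finsupp.add_apply]
  · intro s
    show w.repr (redFst (s • ℓ'')) 0 = TrivSqZeroExt.fst s
    rw [redFst_smul, hℓ0, map_smul, Finsupp.smul_apply, Fermat.Agent.S59.SO.repr_self_zero_zero,
      smul_eq_mul, mul_one]
  · intro s n
    show TrivSqZeroExt.fst (s * (n : DualNumber k)) = n • TrivSqZeroExt.fst s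
    rw [TrivSqZeroExt.fst_mul, TrivSqZeroExt.fst_natCast, nsmul_eq_mul, mul_comm]
  · intro σ hσ
    obtain ⟨a, ha⟩ := Fermat.Agent.S59.SOArith.exists_cycExp p σ 1
    exact ⟨a, ha ζ (by rw [pow_one]; exact hζ.pow_eq_one), hcyc σ hσ a ha⟩
  · intro σ hσ t ht
    exact (hg σ hσ t ht).2

end Fermat.Agent.S56.W4
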