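/-
S56, wall W4: ASSEMBLY of the ordinary case (owner: helper80, sub-architect).
Sorry-free GIVEN the leaves `fl_tangent_normal_form`, `fl_resid_peu` (`Normal.lean`),
`twZpeu_card_le` (`CountB.lean`), `card_Lfl_le` (`Count.lean`), `peuFlat` (`Lib/FFL/PeuFlat.lean`) and
the statement `CountAStatement` (= helper9's `twZ_card_le_unram`, `S56/W4/CountA/*`).

`localWall_flat_ord`: if `ρbar` is ordinary at `P₀` (a basis `w` with `FlTri ρbar.ρ P₀ w`), the flat
tangent classes lie in `Lfl` (or in `⊥` if there are none), and `#Lfl ≤ |k| · #H⁰`.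
The quotient `ψ = omegaW` of the diagonal characters is `det · z⁻²`, `z` the (unramified) lower right
entry; `det` is the cyclotomic character: case (B) if `ψ` is cyclotomic, case (A) otherwise.
-/
import Fermat.Agent.S56.W4.Normal
import Fermat.Agent.S56.W4.CountB
import Fermat.Agent.S56.W4.Count
import Fermat.Agent.S56.W3.Arch
import Fermat.Agent.S56.W3.SO.Place
import Fermat.Agent.Lib.FFL.PeuFlat

set_option autoImplicit false

namespace Fermat.Agent.S56.W4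

open Fermat.Agent.F4 ExtCitation Fermat.Agent.S56.SO Fermat.Agent.FFL IsLocalRing

/-- The statement of seat (A) (helper9, `twZ_card_le_unram`): for an unramified smooth character
`η ≠ 1`, there are at most `|k|²` cocycles of `k(ω η)`. -/
def CountAStatement (p : ℕ) [Fact p.Prime] (k : Type) [Field k] : Prop :=
  ∀ (ω : Gp p → k), IsCycLoc p ω → ∀ η : Gp p →* kˣ,
    (∃ U ∈ levelsAll.sets, U.comap (locp p) ≤ η.ker) →
    (∀ τ ∈ locInertia (pPrime p), η τ = 1) → (∃ γ, η γ ≠ 1) →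
    Finite (twZ p (fun γ => ω γ * (η γ : k))) ∧
      Nat.card (twZ p (fun γ => ω γ * (η γ : k))) ≤ Nat.card k ^ 2

section Wiring

variable {k : Type} [Field k] {p : ℕ} [Fact p.Prime] {ρbar : ResidualGaloisRep k}
  {w : Module.Basis (Fin 2) k ρbar.V}

theorem flTri_isTri (hw : FlTri ρbar.ρ (primeLocalPlace (pPrime p)) w) (γ : Gp p) :
    IsTri w (ρbar.ρ (locp p γ)) :=
  hw.dec _ (locp_mem_decomposition p γ)

/-- The lower right entry of `ρbar` on the local group, as a character. -/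
noncomputable def zChar (hw : FlTri ρbar.ρ (primeLocalPlace (pPrime p)) w) : Gp p →* kˣ where
  toFun γ := Units.mk0 (mat w (ρbar.ρ (locp p γ)) 1 1)
    (tri_diag_ne_zero (flTri_isTri hw γ) (ρ_mul_inv ρbar _)).2
  map_one' := by
    apply Units.ext
    show mat w (ρbar.ρ (locp p 1)) 1 1 = 1
    rw [map_one, map_one, mat_one, Matrix.one_apply_eq]
  map_mul' γ δ := by
    apply Units.ext
    show mat w (ρbar.ρ (locp p (γ * δ))) 1 1 =
      mat w (ρbar.ρ (locp p γ)) 1 1 * mat w (ρbar.ρ (locp p δ)) 1 1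
    rw [map_mul, map_mul, mat_mul, mul_apply_two, (isTri_iff w _).mp (flTri_isTri hw γ),
      zero_mul, zero_add]

theorem zChar_apply (hw : FlTri ρbar.ρ (primeLocalPlace (pPrime p)) w) (γ : Gp p) :
    ((zChar hw γ : kˣ) : k) = mat w (ρbar.ρ (locp p γ)) 1 1 := rfl

/-- The determinant of a triangular endomorphism. -/
theorem det_eq_of_isTri {V : Type} [AddCommGroup V] [Module k V] (w : Module.Basis (Fin 2) k V)
    {g : Module.End k V} (hg : IsTri w g) : LinearMap.det g = mat w g 0 0 * mat w g 1 1 := by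
  rw [← LinearMap.det_toMatrix w, Matrix.det_fin_two]
  have h := (isTri_iff w g).mp hg
  rw [mat] at h
  rw [h, mul_zero, sub_zero]

/-- `ψ = det · z⁻²`. -/
theorem omegaW_eq (hw : FlTri ρbar.ρ (primeLocalPlace (pPrime p)) w) (γ : Gp p) :
    omegaW p ρbar w γ =
      LinearMap.det (ρbar.ρ (locp p γ)) * (((zChar hw)⁻¹ ^ 2 : Gp p →* kˣ) γ : k) := by
  have hz : mat w (ρbar.ρ (locp p γ)) 1 1 ≠ 0 :=
    (tri_diag_ne_zero (flTri_isTri hw γ) (ρ_mul_inv ρbar _)).2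
  have e : (((zChar hw)⁻¹ ^ 2 : Gp p →* kˣ) γ : k) = (mat w (ρbar.ρ (locp p γ)) 1 1)⁻¹ ^ 2 := by
    rw [MonoidHom.pow_apply, MonoidHom.inv_apply, Units.val_pow_eq_pow_val, Units.val_inv_eq_inv_val,
      zChar_apply]
  rw [e, det_eq_of_isTri w (flTri_isTri hw γ), omegaW]
  field_simp

/-- The count for `ψ`: case (B) if `ψ` is the cyclotomic character, case (A) otherwise. -/
theorem card_twZpeu_omegaW_le [Finite k] (hp2 : p ≠ 2) (hpk : (p : k) = 0)
    (hdet : (GaloisRepAdic.ofResidualGaloisRep ρbar).DetIsCyclotomic p)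
    (hw : FlTri ρbar.ρ (primeLocalPlace (pPrime p)) w)
    (ζ : AlgebraicClosure ℚ) (hζ : IsPrimitiveRoot ζ p) (hA : CountAStatement p k) :
    Finite ↥(twZpeu p ζ hζ.pow_eq_one (omegaW p ρbar w)) ∧
      Nat.card ↥(twZpeu p ζ hζ.pow_eq_one (omegaW p ρbar w)) ≤ Nat.card k ^ 2 := by
  by_cases hcyc : IsCycLoc p (omegaW p ρbar w)
  · exact twZpeu_card_le p hp2 hpk (omegaW p ρbar w) hcyc ζ hζ
  · -- case (A)
    have hω₀ : IsCycLoc p (fun γ : Gp p => LinearMap.det (ρbar.ρ (locp p γ))) :=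
      fun γ a ha => Fermat.Agent.S56.arch_det_eq p ρbar hdet (locp p γ) a ha
    have hsm : ∃ U ∈ levelsAll.sets,
        U.comap (locp p) ≤ ((zChar hw)⁻¹ ^ 2 : Gp p →* kˣ).ker := by
      refine ⟨ρbar.ρ.ker, ker_mem_levelsAll ρbar, fun γ hγ => ?_⟩
      have h1 : ρbar.ρ (locp p γ) = 1 := MonoidHom.mem_ker.mp hγ
      have h2 : zChar hw γ = 1 := by
        apply Units.ext
        rw [zChar_apply, h1, mat_one, Matrix.one_apply_eq, Units.val_one]
      rw [MonoidHom.mem_ker, MonoidHom.pow_apply, MonoidHom.inv_apply, h2, inv_one, one_pow]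
    have hunr : ∀ τ ∈ locInertia (pPrime p), ((zChar hw)⁻¹ ^ 2 : Gp p →* kˣ) τ = 1 := by
      intro τ hτ
      have h2 : zChar hw τ = 1 := by
        apply Units.ext
        rw [zChar_apply, mat_apply, Units.val_one]
        exact hw.inert _ hτ
      rw [MonoidHom.pow_apply, MonoidHom.inv_apply, h2, inv_one, one_pow]
    have hne : ∃ γ, ((zChar hw)⁻¹ ^ 2 : Gp p →* kˣ) γ ≠ 1 := by
      by_contra hall
      push Not at hall
      apply hcyc
      intro γ a ha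
      rw [omegaW_eq hw γ, hall γ, Units.val_one, mul_one]
      exact hω₀ γ a ha
    obtain ⟨hfin, hcard⟩ := hA _ hω₀ _ hsm hunr hne
    have hfun : (fun γ : Gp p => LinearMap.det (ρbar.ρ (locp p γ)) *
        (((zChar hw)⁻¹ ^ 2 : Gp p →* kˣ) γ : k)) = omegaW p ρbar w :=
      funext fun γ => (omegaW_eq hw γ).symm
    rw [hfun] at hfin hcard
    have hle : twZpeu p ζ hζ.pow_eq_one (omegaW p ρbar w) ≤ twZ p (omegaW p ρbar w) :=
      fun f hf => hf.1
    have hfin' : Finite ↥(twZpeu p ζ hζ.pow_eq_one (omegaW p ρbar w)) :=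
      Finite.of_injective (AddSubgroup.inclusion hle) (AddSubgroup.inclusion_injective hle)
    exact ⟨hfin', (Nat.card_le_card_of_injective (AddSubgroup.inclusion hle)
      (AddSubgroup.inclusion_injective hle)).trans hcard⟩

end Wiring

/-- **W4, ordinary case**: if `ρbar` is ordinary at `P₀`, the flat tangent classes at `p` lie in a
subgroup with at most `|k| · #H⁰(D_p, ad⁰ρbar)` elements. -/
theorem localWall_flat_ord {𝒪 : Type} [CommRing 𝒪] [IsLocalRing 𝒪] [Finite (ResidueField 𝒪)]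
    (p : ℕ) [Fact p.Prime] (hp2 : p ≠ 2) (ρbar : ResidualGaloisRep (ResidueField 𝒪))
    (hdet : (GaloisRepAdic.ofResidualGaloisRep ρbar).DetIsCyclotomic p)
    (𝒟 : ∀ ⦃A : Type⦄ [CommRing A] [IsLocalRing A] [Algebra 𝒪 A], GaloisRepAdic A → Prop)
    (h𝒟 : ∀ ⦃A : Type⦄ [CommRing A] [IsLocalRing A] [Algebra 𝒪 A] (ρ : GaloisRepAdic A),
      𝒟 ρ → ρ.DetIsCyclotomic p ∧ ρ.IsFlatAt p)
    (hA : CountAStatement p (ResidueField 𝒪))
    (w : Module.Basis (Fin 2) (ResidueField 𝒪) ρbar.V)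
    (hw : FlTri ρbar.ρ (primeLocalPlace (pPrime p)) w) :
    LocalWall (ad0 ρbar) (TangentClasses 𝒪 ρbar 𝒟) (pPrime p)
      (Nat.card (ResidueField 𝒪)) := by
  classical
  have hp : p.Prime := Fact.out
  have hpk : (p : ResidueField 𝒪) = 0 := Fermat.Agent.S56.arch_p_eq_zero p ρbar hdet
  have hfinM : Finite (ad0 ρbar) :=
    Module.finite_of_finite (ResidueField 𝒪) (M := ↥(ad0Sub ρbar))
  by_cases hT : (TangentClasses 𝒪 ρbar 𝒟).Nonempty
  · obtain ⟨x₀, c₀, -, ρ₀, hρ₀, hdef₀⟩ := hT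
    have hP := SO.so_liesOver p
    have hpeu : PeuFlat p (primeLocalPlace (pPrime p)) := peuFlat hp hP
    have : NeZero p := ⟨hp.ne_zero⟩
    obtain ⟨ζ, hζ⟩ := HasEnoughRootsOfUnity.exists_primitiveRoot (AlgebraicClosure ℚ) p
    have h𝒟₀ := @h𝒟 _ _ _ (Fermat.Agent.S53.dualNumberAlgebra 𝒪) ρ₀ hρ₀.1
    have hb : IsPeuLoc p ζ (fun γ => mat w (ρbar.ρ (locp p γ)) 0 1) :=
      isPeuLoc_of_isPeu (fl_resid_peu p hp2 hpk ρbar (primeLocalPlace (pPrime p)) hP w hw ζ hζ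
        hpeu c₀.1 ρ₀ hdef₀ h𝒟₀.1 h𝒟₀.2)
    have hcount := card_twZpeu_omegaW_le hp2 hpk hdet hw ζ hζ hA
    obtain ⟨hfin, hcard⟩ := card_Lfl_le hp2 hpk hdet hw ζ hζ hb hcount
    refine ⟨Lfl p ρbar w ζ hζ.pow_eq_one, ?_, hfin, hcard⟩
    rintro x ⟨c, rfl, ρ, hρ, hdef⟩
    have h𝒟ρ := @h𝒟 _ _ _ (Fermat.Agent.S53.dualNumberAlgebra 𝒪) ρ hρ.1
    obtain ⟨m, hm1, hm2, hm3⟩ := fl_tangent_normal_form p hp2 hpk ρbar
      (primeLocalPlace (pPrime p)) hP w hw ζ hζ hpeu c.1 ρ hdef h𝒟ρ.1 h𝒟ρ.2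
    -- the restricted cocycle and its modification by the coboundary of `m`
    let cl : ↥(Z1 (locLevelsAll (pPrime p)) (SO.Mloc p ρbar)) :=
      Z1res levelsAll (ad0 ρbar) (primeLocalToGlobal (pPrime p)) c
    let dm : ↥(Z1 (locLevelsAll (pPrime p)) (SO.Mloc p ρbar)) :=
      ⟨δ0 (SO.Mloc p ρbar) m, groupCohomology.d₀₁_apply_mem_cocycles₁ _,
        isLC₁_δ0 (SO.isSmooth_Mloc p ρbar) _⟩
    have hmem : cl + dm ∈ Zfl p ρbar w ζ hζ.pow_eq_one :=
      ⟨fun γ => hm1 _ (SO.locp_mem_decomposition p γ), fun γ hγ => hm2 _ hγ,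
        isPeuLoc_of_isPeu hm3⟩
    have hdm : H1smπ (locLevelsAll (pPrime p)) (SO.Mloc p ρbar) dm = 0 := by
      rw [H1smπ, Submodule.mkQ_apply, Submodule.Quotient.mk_eq_zero, Submodule.mem_comap]
      exact ⟨m, rfl⟩
    have hres : resLoc (ad0 ρbar) (pPrime p) (H1smπ levelsAll (ad0 ρbar) c) =
        H1smπ (locLevelsAll (pPrime p)) (SO.Mloc p ρbar) cl := rfl
    refine ⟨⟨cl + dm, hmem⟩, ?_⟩
    show H1smπ (locLevelsAll (pPrime p)) (SO.Mloc p ρbar) (cl + dm) = _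
    rw [map_add, hdm, add_zero, hres]
  · refine ⟨⊥, fun x hx => (hT ⟨x, hx⟩).elim, inferInstance, ?_⟩
    rw [AddSubgroup.card_bot]
    exact Nat.one_le_iff_ne_zero.mpr (Nat.mul_ne_zero Nat.card_pos.ne' Nat.card_pos.ne')

end Fermat.Agent.S56.W4
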