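/-
S56, WALL W4: FINAL ASSEMBLY of the flat wall from the two cases (helper80).

`localWall_flat_of_props` : `localWall_flat` from
 * the count (A) of the ordinary case (`CountAStatement`, `S56/W4/Asm.lean`), and
 * the four interface statements of case C (`S56/W4/C/Defs.lean`).

Case split: either `ρbar` is triangular at `P₀` with unramified quotient (`FlTri`): ordinary case
(`localWall_flat_ord`), or the inertia coinvariants of `ρbar` vanish
(`coinv_eq_top_of_not_flTri`): case C (`SS.localWall_flat_ss_of_props`).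
-/
import Fermat.Agent.S56.W4.Asm
import Fermat.Agent.S56.W4.Tri
import Fermat.Agent.S56.W4.C.Asm

set_option autoImplicit false

namespace Fermat.Agent.S56.W4

open Fermat.Agent.F4 ExtCitation IsLocalRing

/-- **W4 from the interface statements of the two cases.** -/
theorem localWall_flat_of_props {𝒪 : Type} [CommRing 𝒪] [IsLocalRing 𝒪]
    [Finite (ResidueField 𝒪)]
    (p : ℕ) [Fact p.Prime] (hp2 : p ≠ 2)
    (hA : CountAStatement p (ResidueField 𝒪))
    (hS : SS.SStructProp p) (hH : SS.HopfSideProp p) (hT : SS.FieldTProp p)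
    (hN : SS.CountProp p)
    (ρbar : ResidualGaloisRep (ResidueField 𝒪))
    (hdet : (GaloisRepAdic.ofResidualGaloisRep ρbar).DetIsCyclotomic p)
    (hsplit : ∀ σ : AlgebraicClosure ℚ ≃ₐ[ℚ] AlgebraicClosure ℚ,
      ∃ α β : ResidueField 𝒪, LinearMap.charpoly (ρbar.ρ σ) =
        (Polynomial.X - Polynomial.C α) * (Polynomial.X - Polynomial.C β))
    (𝒟 : ∀ ⦃A : Type⦄ [CommRing A] [IsLocalRing A] [Algebra 𝒪 A], GaloisRepAdic A → Prop)
    (h𝒟 : ∀ ⦃A : Type⦄ [CommRing A] [IsLocalRing A] [Algebra 𝒪 A] (ρ : GaloisRepAdic A),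
      𝒟 ρ → ρ.DetIsCyclotomic p ∧ ρ.IsFlatAt p) :
    LocalWall (ad0 ρbar) (TangentClasses 𝒪 ρbar 𝒟) (pPrime p)
      (Nat.card (ResidueField 𝒪)) := by
  by_cases h : ∃ w : Module.Basis (Fin 2) (ResidueField 𝒪) ρbar.V,
      FlTri ρbar.ρ (primeLocalPlace (pPrime p)) w
  · obtain ⟨w, hw⟩ := h
    exact localWall_flat_ord p hp2 ρbar hdet 𝒟 h𝒟 hA w hw
  · exact SS.localWall_flat_ss_of_props p hp2 hS hH hT hN ρbar hdet hsplit 𝒟 h𝒟
      (coinv_eq_top_of_not_flTri p hp2 _ (SO.so_liesOver p) ρbar hdet h)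

end Fermat.Agent.S56.W4
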