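/-
S56, WALL W4: the flat wall from the four interface statements of case C (helper80).

`countAStatement` : seat (A) (`twZ_card_le_unram`, helper9) in the form used by the ordinary case.
`localWall_flat_of_ss` : `localWall_flat` from `SStructProp`, `HopfSideProp`, `FieldTProp`,
`CountProp` (case C, `S56/W4/C/Defs.lean`); the ordinary case is unconditional.
-/
import Fermat.Agent.S56.W4.FlatAsm
import Fermat.Agent.S56.W4.CountA.Main

set_option autoImplicit false

namespace Fermat.Agent.S56.W4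

open Fermat.Agent.F4 ExtCitation IsLocalRing

/-- Seat (A), in the packaged form. -/
theorem countAStatement (p : ℕ) [Fact p.Prime] (hp2 : p ≠ 2) (k : Type) [Field k] [Finite k]
    (hpk : (p : k) = 0) : CountAStatement p k :=
  fun ω hω η hlev hunr hne =>
    Fermat.Agent.S56.W4A.twZ_card_le_unram p hp2 hpk ω hω η hlev hunr hne

/-- **W4 from the interface statements of case C.** -/
theorem localWall_flat_of_ss {𝒪 : Type} [CommRing 𝒪] [IsLocalRing 𝒪]
    [Finite (ResidueField 𝒪)]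
    (p : ℕ) [Fact p.Prime] (hp2 : p ≠ 2)
    (hS : SS.SStructProp p) (hH : SS.HopfSideProp p) (hT : SS.FieldTProp p)
    (hN : SS.CountProp p)
    (ρbar : ResidualGaloisRep (ResidueField 𝒪))
    (hdet : (GaloisRepAdic.ofResidualGaloisRep ρbar).DetIsCyclotomic p)
    (hsplit : ∀ σ : AlgebraicClosure ℚ ≃ₐ[ℚ] AlgebraicClosure ℚ,
      ∃ α β : ResidueField 𝒪, LinearMap.charpoly (ρbar.ρ σ) =
        (Polynomial.X - Polynomial.C α) * (Polynomial.X - Polynomial.C β))
    (𝒟 : ∀ ⦃A : Type⦄ [CommRing A] [IsLocalRing A] [Algebra 𝒪 A], GaloisRepAdic A → Prop)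
    (h𝒟 : ∀ ⦃A : Type⦄ [CommRing A] [IsLocalRing A] [Algebra 𝒪 A] (ρ : GaloisRepAdic A),
      𝒟 ρ → ρ.DetIsCyclotomic p ∧ ρ.IsFlatAt p) :
    LocalWall (ad0 ρbar) (TangentClasses 𝒪 ρbar 𝒟) (pPrime p)
      (Nat.card (ResidueField 𝒪)) :=
  localWall_flat_of_props p hp2
    (countAStatement p hp2 (ResidueField 𝒪) (Fermat.Agent.S56.arch_p_eq_zero p ρbar hdet))
    hS hH hT hN ρbar hdet hsplit 𝒟 h𝒟

end Fermat.Agent.S56.W4
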