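/-
S56, WALL W4 (sub-architect: helper80, package FFL): the flat local condition at `p`.
DONE (statement FIXED): wired by helper82 from `S56/W4/FlatFinal.lean` (ordinary case, helper80)
and the four blocks of case C: S (`sStructProp`, helper85), TR (`hopfSideProp`, helper37),
KT (`fieldTProp_of_bridge`, `ktBridgeProp`; helper91, helper87), KN (`countProp_of_tame`,
`tameProp`; helper73, helper97).

Classically `L = H¹_f(D_p, ad⁰ρbar)` and `dim_k L = 1 + dim_k H⁰(D_p, ad⁰ρbar)` (Ramakrishna,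
Fontaine–Laffaille).  Here only "`⊆` a subgroup of at most this size" is needed.
Route (blueprint-S56.md W4, helper39's note, lead's FFL note): a tangent point `ρ_c` which is flat
(`GaloisRepAdic.IsFlatAt`, ideal `I = 0` of `k[ε]`) has a Hopf order over `ℤ_(p)`;
 ordinary case: connected–étale sequence ⇒ `ρ_c|D_p` is ordinary with unramified quotient, and peu
   ramifié when `χ₁/χ₂ = ω`;
 supersingular case: `ρbar|I_p = ω₂ ⊕ ω₂^p`; the classes of `H¹(D_p, ad⁰)` live at the levels
   `i = 2, p + 1, p² + 1` of the unit filtration of the splitting field (upper breaks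
   `(p+2)/(p+1), 1, 1/(p+1)`); any ramification bound "`G^u` acts trivially for `u ≥ 1`" for Hopf
   orders killed by `p` leaves only the last one.
-/
import Fermat.Agent.S56.Local.Walls
import Fermat.Prelude.Def_GaloisRep_Flat
import Fermat.Agent.S56.W4.FlatFinal
import Fermat.Agent.S56.W4.C.S.Final
import Fermat.Agent.S56.W4.C.TR.Main
import Fermat.Agent.S56.W4.C.KT.Final
import Fermat.Agent.S56.W4.C.KT.Bridge
import Fermat.Agent.S56.W4.C.KN.Final
import Fermat.Agent.S56.W4.C.KN.Tame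

set_option autoImplicit false

namespace Fermat.Agent.S56

open Fermat.Agent.F4 ExtCitation IsLocalRing

/-- **W4**: the flat tangent classes at `p` lie in a subgroup with at most
`|k| · #H⁰(D_p, ad⁰ρbar)` elements. -/
theorem localWall_flat {𝒪 : Type} [CommRing 𝒪] [IsLocalRing 𝒪] [Finite (ResidueField 𝒪)]
    (p : ℕ) [Fact p.Prime] (hp2 : p ≠ 2) (ρbar : ResidualGaloisRep (ResidueField 𝒪))
    (hdet : (GaloisRepAdic.ofResidualGaloisRep ρbar).DetIsCyclotomic p)
    (hsplit : ∀ σ : AlgebraicClosure ℚ ≃ₐ[ℚ] AlgebraicClosure ℚ,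
      ∃ α β : ResidueField 𝒪, LinearMap.charpoly (ρbar.ρ σ) =
        (Polynomial.X - Polynomial.C α) * (Polynomial.X - Polynomial.C β))
    (𝒟 : ∀ ⦃A : Type⦄ [CommRing A] [IsLocalRing A] [Algebra 𝒪 A], GaloisRepAdic A → Prop)
    (h𝒟 : ∀ ⦃A : Type⦄ [CommRing A] [IsLocalRing A] [Algebra 𝒪 A] (ρ : GaloisRepAdic A),
      𝒟 ρ → ρ.DetIsCyclotomic p ∧ ρ.IsFlatAt p) :
    LocalWall (ad0 ρbar) (TangentClasses 𝒪 ρbar 𝒟) (pPrime p)
      (Nat.card (ResidueField 𝒪)) :=
  W4.localWall_flat_of_ss p hp2 (SS.sStructProp p) (SS.hopfSideProp p)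
    (SS.fieldTProp_of_bridge p (SS.ktBridgeProp p)) (SS.countProp_of_tame p (SS.tameProp p))
    ρbar hdet hsplit 𝒟 h𝒟

end Fermat.Agent.S56
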