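/-
S56, wall W4, case SS (supersingular) = R4-FB (Fontaine's bound).  DONE, statement FIXED
(sub-architect helper80; owners: the R4-FB cluster, architect helper37, and helper82's route).
Not used by the S56 closure: the case distinction is made in `S56/W4/FlatAsm.lean`, and the
supersingular case is `Fermat.Agent.S56.SS.localWall_flat_ss_of_props` (`S56/W4/C/Asm.lean`); the
statement below is kept as a corollary of `localWall_flat`.

The hypothesis `hss` says that `ρbar` is not ordinary at `P₀ = primeLocalPlace (pPrime p)`: there is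
no basis `w` with `ρbar(D)` triangular and `I` trivial on `V / k · w 0`.  As `ρbar(I) ≠ 1`
(`det = ω`, `p` odd) this means: the inertia coinvariants of `ρbar` vanish
(`Fermat.Agent.S56.W4.coinv_eq_top_of_not_flTri`, in `S56/W4/Tri.lean`).
-/
import Fermat.Agent.S56.W4.Defs
import Fermat.Prelude.Def_GaloisRep_Flat
import Fermat.Agent.S56.W4.Flat

set_option autoImplicit false

namespace Fermat.Agent.S56.W4

open Fermat.Agent.F4 ExtCitation IsLocalRing

/-- **W4, supersingular case**. -/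
theorem localWall_flat_ss {𝒪 : Type} [CommRing 𝒪] [IsLocalRing 𝒪] [Finite (ResidueField 𝒪)]
    (p : ℕ) [Fact p.Prime] (hp2 : p ≠ 2) (ρbar : ResidualGaloisRep (ResidueField 𝒪))
    (hdet : (GaloisRepAdic.ofResidualGaloisRep ρbar).DetIsCyclotomic p)
    (hsplit : ∀ σ : AlgebraicClosure ℚ ≃ₐ[ℚ] AlgebraicClosure ℚ,
      ∃ α β : ResidueField 𝒪, LinearMap.charpoly (ρbar.ρ σ) =
        (Polynomial.X - Polynomial.C α) * (Polynomial.X - Polynomial.C β))
    (𝒟 : ∀ ⦃A : Type⦄ [CommRing A] [IsLocalRing A] [Algebra 𝒪 A], GaloisRepAdic A → Prop)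
    (h𝒟 : ∀ ⦃A : Type⦄ [CommRing A] [IsLocalRing A] [Algebra 𝒪 A] (ρ : GaloisRepAdic A),
      𝒟 ρ → ρ.DetIsCyclotomic p ∧ ρ.IsFlatAt p)
    (hss : ¬ ∃ w : Module.Basis (Fin 2) (ResidueField 𝒪) ρbar.V,
      FlTri ρbar.ρ (primeLocalPlace (pPrime p)) w) :
    LocalWall (ad0 ρbar) (TangentClasses 𝒪 ρbar 𝒟) (pPrime p)
      (Nat.card (ResidueField 𝒪)) :=
  have _ := hss
  Fermat.Agent.S56.localWall_flat p hp2 ρbar hdet hsplit 𝒟 h𝒟

end Fermat.Agent.S56.W4
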